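import Mathlib
import Fermat.Prelude.Def_FLTPrelim_Ramification
import Fermat.Agent.A2.H708.Tame

/-!
# S56 / LOC-TAME (helper794), part 1: the tame character is faithful on prime-to-residue-char
quotients of inertia

`L/K` algebraic, `A` a valuation subring of `L`, `τ ∈ A.inertiaSubgroupIn K`.
`tameHom A hτ : Lˣ →* kˣ` is the tame character of `Fermat.Agent.A2.H708`.

* `tameHom_pow` : `tame(τ ^ n) = tame(τ) ^ n`.
* `tameHom_ne_one_of_pow_apply_eq` : if `τ ^ m` fixes `x`, `m` is a unit of `A` (i.e. prime to the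
  residue characteristic) and `τ x ≠ x`, then the tame character of `τ` is nontrivial on
  `τ x - x`.  (Proof: `y = τ x - x` has `∑_{i<m} τ^i y = 0`; if `tame τ y = 1` then every
  `τ^i y ≡ y mod y𝔪`, so `m y ∈ y𝔪`.)
* `exists_tameHom_ne_one` : for a homomorphism `f` of finite level (open kernel) on
  `Gal(L/K)`: if `f τ ≠ 1` and `f τ ^ m = 1` with `m` a unit of `A`, then the tame character of
  `τ` is nontrivial.
-/

set_option autoImplicit false

namespace Fermat.Agent.S56.H794

open Fermat.Agent.A2.H708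

section general

variable {K L : Type*} [Field K] [Field L] [Algebra K L] [Algebra.IsAlgebraic K L]
  (A : ValuationSubring L)

/-- The tame character only depends on the automorphism (proof irrelevance helper). -/
theorem tameHom_congr {σ τ : L ≃ₐ[K] L} (h : σ = τ) (hσ : σ ∈ A.inertiaSubgroupIn K)
    (hτ : τ ∈ A.inertiaSubgroupIn K) (c : Lˣ) : tameHom A hσ c = tameHom A hτ c := by
  subst h
  rfl

/-- The tame character of the identity is trivial. -/
theorem tameHom_one (c : Lˣ) : tameHom A (one_mem (A.inertiaSubgroupIn K)) c = 1 :=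
  tameHom_eq_one_of_fixed A _ c rfl

/-- The tame character of a power. -/
theorem tameHom_pow {τ : L ≃ₐ[K] L} (hτ : τ ∈ A.inertiaSubgroupIn K) (n : ℕ) (c : Lˣ) :
    tameHom A (pow_mem hτ n) c = tameHom A hτ c ^ n := by
  induction n with
  | zero =>
    exact (tameHom_congr A (pow_zero τ) (pow_mem hτ 0) (one_mem _) c).trans
      ((tameHom_one A c).trans (pow_zero _).symm)
  | succ n ih =>
    calc tameHom A (pow_mem hτ (n + 1)) c
        = tameHom A (mul_mem (pow_mem hτ n) hτ) c :=
          tameHom_congr A (pow_succ τ n) _ _ c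
      _ = tameHom A (pow_mem hτ n) c * tameHom A hτ c := tameHom_mul A _ _ c
      _ = tameHom A hτ c ^ n * tameHom A hτ c := congrArg (· * tameHom A hτ c) ih
      _ = tameHom A hτ c ^ (n + 1) := (pow_succ _ _).symm

omit [Algebra.IsAlgebraic K L] in
/-- Telescoping sum: `∑_{i<m} τ^i (τ x - x) = τ^m x - x`. -/
theorem sum_pow_apply_sub (τ : L ≃ₐ[K] L) (x : L) (m : ℕ) :
    ∑ i ∈ Finset.range m, (τ ^ i) (τ x - x) = (τ ^ m) x - x := by
  induction m with
  | zero => simp
  | succ m ih =>
    rw [Finset.sum_range_succ, ih, map_sub]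
    have h1 : (τ ^ m) (τ x) = (τ ^ (m + 1)) x := by
      rw [pow_succ]
      rfl
    rw [h1]
    ring

/-- **Faithfulness of the tame character.**  If `τ ^ m` fixes `x`, where `m` is prime to the
residue characteristic (`v m = 1`), and `τ x ≠ x`, then the tame character of `τ` is
nontrivial on `τ x - x`. -/
theorem tameHom_ne_one_of_pow_apply_eq {τ : L ≃ₐ[K] L} (hτ : τ ∈ A.inertiaSubgroupIn K)
    {x : L} {m : ℕ} (hm : A.valuation (m : L) = 1) (hx : (τ ^ m) x = x) (hne : τ x ≠ x) :
    tameHom A hτ (Units.mk0 (τ x - x) (sub_ne_zero.mpr hne)) ≠ 1 := by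
  intro h1
  have hy : τ x - x ≠ 0 := sub_ne_zero.mpr hne
  have hvy : A.valuation (τ x - x) ≠ 0 := (Valuation.ne_zero_iff _).mpr hy
  have hi : ∀ i : ℕ, A.valuation ((τ ^ i) (τ x - x) - (τ x - x)) < A.valuation (τ x - x) := by
    intro i
    have h2 := tameHom_pow A hτ i (Units.mk0 (τ x - x) hy)
    rw [h1, one_pow] at h2
    exact (tameHom_eq_one_iff A (pow_mem hτ i) _).mp h2
  have hsum : ∑ i ∈ Finset.range m, ((τ ^ i) (τ x - x) - (τ x - x)) = - ((m : L) * (τ x - x)) := by
    rw [Finset.sum_sub_distrib, sum_pow_apply_sub, hx, sub_self, Finset.sum_const,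
      Finset.card_range, nsmul_eq_mul, zero_sub]
  have hlt : A.valuation (∑ i ∈ Finset.range m, ((τ ^ i) (τ x - x) - (τ x - x))) <
      A.valuation (τ x - x) :=
    Valuation.map_sum_lt _ hvy (fun i _ => hi i)
  rw [hsum, Valuation.map_neg, map_mul, hm, one_mul] at hlt
  exact lt_irrefl _ hlt

end general

/-- A homomorphism on `Gal(L/K)` is of *finite level* if it is trivial on the subgroup fixing
some finite subextension. -/
def FiniteLevel {K L : Type*} [Field K] [Field L] [Algebra K L] {G : Type*} [Group G]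
    (f : (L ≃ₐ[K] L) →* G) : Prop :=
  ∃ E : IntermediateField K L, FiniteDimensional K E ∧ ∀ τ : L ≃ₐ[K] L, (∀ x ∈ E, τ x = x) → f τ = 1

section finiteLevel

variable {K L : Type*} [Field K] [Field L] [Algebra K L] [IsGalois K L]
  (A : ValuationSubring L)

/-- The kernel of a homomorphism of finite level is the group fixing its fixed field. -/
theorem mem_ker_of_fixes_fixedField {G : Type*} [Group G] {f : (L ≃ₐ[K] L) →* G}
    (hf : FiniteLevel f) {τ : L ≃ₐ[K] L}
    (hτ : ∀ x ∈ IntermediateField.fixedField f.ker, τ x = x) : f τ = 1 := by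
  obtain ⟨E, hE, hEf⟩ := hf
  have hle : E.fixingSubgroup ≤ f.ker := by
    intro σ hσ
    rw [MonoidHom.mem_ker]
    apply hEf
    intro x hx
    exact (IntermediateField.mem_fixingSubgroup_iff E σ).mp hσ x hx
  have hopen : IsOpen (f.ker : Set (L ≃ₐ[K] L)) :=
    Subgroup.isOpen_mono hle E.fixingSubgroup_isOpen
  have hclosed : IsClosed (f.ker : Set (L ≃ₐ[K] L)) :=
    OpenSubgroup.isClosed ⟨f.ker, hopen⟩
  have h := InfiniteGalois.fixingSubgroup_fixedField (k := K) (K := L) ⟨f.ker, hclosed⟩
  have hmem : τ ∈ (IntermediateField.fixedField f.ker).fixingSubgroup := by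
    rw [IntermediateField.mem_fixingSubgroup_iff]
    exact hτ
  have h2 : τ ∈ f.ker := by
    have h3 : (IntermediateField.fixedField (⟨f.ker, hclosed⟩ : ClosedSubgroup (L ≃ₐ[K] L)).1).fixingSubgroup
        = f.ker := h
    rw [← h3]
    exact hmem
  exact MonoidHom.mem_ker.mp h2

/-- **Faithfulness, finite-level form.**  If `f τ ≠ 1` but `f τ ^ m = 1` with `m` prime to the
residue characteristic, then the tame character of `τ` is nontrivial on some element of the
fixed field of `ker f`. -/
theorem exists_tameHom_ne_one {G : Type*} [Group G] {f : (L ≃ₐ[K] L) →* G}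
    (hf : FiniteLevel f) {τ : L ≃ₐ[K] L} (hτ : τ ∈ A.inertiaSubgroupIn K)
    {m : ℕ} (hm : A.valuation (m : L) = 1) (hfm : f τ ^ m = 1) (hne : f τ ≠ 1) :
    ∃ c : Lˣ, (c : L) ∈ IntermediateField.fixedField f.ker ∧ tameHom A hτ c ≠ 1 := by
  by_contra hcon
  have hcon' : ∀ c : Lˣ, (c : L) ∈ IntermediateField.fixedField f.ker → tameHom A hτ c = 1 := by
    intro c hc
    by_contra h
    exact hcon ⟨c, hc, h⟩
  apply hne
  apply mem_ker_of_fixes_fixedField hf
  intro x hx
  by_contra hx'
  have hτm : τ ^ m ∈ f.ker := by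
    rw [MonoidHom.mem_ker, map_pow, hfm]
  have hxm : (τ ^ m) x = x := by
    have := (IntermediateField.mem_fixedField_iff f.ker x).mp hx
    exact this (τ ^ m) hτm
  have hτx : τ x ∈ IntermediateField.fixedField f.ker := by
    rw [IntermediateField.mem_fixedField_iff]
    intro σ hσ
    -- σ (τ x) = τ ((τ⁻¹ σ τ) x) = τ x since ker is normal
    have hconj : τ⁻¹ * σ * τ ∈ f.ker := by
      have := f.normal_ker.conj_mem σ hσ τ⁻¹
      simpa [mul_assoc] using this
    have h1 : (τ⁻¹ * σ * τ) x = x :=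
      (IntermediateField.mem_fixedField_iff f.ker x).mp hx _ hconj
    have h2 : τ ((τ⁻¹ * σ * τ) x) = σ (τ x) := by
      show (τ * (τ⁻¹ * σ * τ)) x = (σ * τ) x
      congr 1
      group
    rw [← h2, h1]
  have hmem : (τ x - x) ∈ IntermediateField.fixedField f.ker := sub_mem hτx hx
  exact tameHom_ne_one_of_pow_apply_eq A hτ hm hxm hx' (hcon' _ hmem)

end finiteLevel

end Fermat.Agent.S56.H794
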