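import Mathlib
import Fermat.Prelude.Def_FLTPrelim_Ramification
import Fermat.Prelude.Def_EllipticCurve_FrobeniusTrace
import Fermat.Agent.A2.H708.Tame
import Fermat.Agent.S56.H794.TameFaithful

/-!
# S56 / LOC-TAME (helper794), part 2: commutativity and the Frobenius relation

`L/K` Galois, `A` a valuation subring of `L`, `I = A.inertiaSubgroupIn K`, `f` a homomorphism of
finite level on `Gal(L/K)` such that every `f τ`, `τ ∈ I`, has order prime to the residue
characteristic (`PrimeToResChar A f`).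

* `conj_mem_inertiaIn` : inertia is normalised by the decomposition group.
* `tameHom_conj_frobenius` : `tame(φ τ φ⁻¹) = tame(τ) ^ q` for a Frobenius `φ` (Prelude
  `IsFrobeniusAt φ q`).
* `map_eq_one_of_tameHom_eq_one` : faithfulness in the form used below.
* `map_mul_comm_of_mem_inertiaIn` : `f` is commutative on `I`.
* `map_conj_frobenius` : `f (φ τ φ⁻¹) = f τ ^ q`.
-/

set_option autoImplicit false

namespace Fermat.Agent.S56.H794

open Fermat.Agent.A2.H708

section general

variable {K L : Type*} [Field K] [Field L] [Algebra K L] (A : ValuationSubring L)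

/-- The inertia group (Prelude form) is normalised by the decomposition group. -/
theorem conj_mem_inertiaIn {φ τ : L ≃ₐ[K] L} (hφ : φ ∈ A.decompositionSubgroup K)
    (hτ : τ ∈ A.inertiaSubgroupIn K) : φ * τ * φ⁻¹ ∈ A.inertiaSubgroupIn K := by
  obtain ⟨τ', hτ', rfl⟩ := hτ
  have hn : (A.inertiaSubgroup K).Normal := MonoidHom.normal_ker _
  have h := hn.conj_mem τ' hτ' ⟨φ, hφ⟩
  exact Subgroup.mem_map_of_mem (A.decompositionSubgroup K).subtype h

variable [Algebra.IsAlgebraic K L]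

/-- The value of the tame character as a residue class. -/
theorem coe_tameHom {τ : L ≃ₐ[K] L} (hτ : τ ∈ A.inertiaSubgroupIn K) (c : Lˣ)
    (h : τ (c : L) / c ∈ A) :
    ((tameHom A hτ c : (IsLocalRing.ResidueField A)ˣ) : IsLocalRing.ResidueField A) =
      IsLocalRing.residue A ⟨τ (c : L) / c, h⟩ := by
  unfold tameHom
  rw [MonoidHom.comp_apply, ValuationSubring.coe_unitGroupToResidueFieldUnits_apply]
  show IsLocalRing.residue A _ = IsLocalRing.residue A _
  congr 1
  apply Subtype.ext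
  rw [ValuationSubring.coe_unitGroupMulEquiv_apply, coe_ratioHom]

theorem apply_div_mem {τ : L ≃ₐ[K] L} (hτ : τ ∈ A.decompositionSubgroup K) (c : Lˣ) :
    τ (c : L) / c ∈ A := by
  rw [← A.valuation_le_one_iff]
  exact (valuation_apply_div_self A hτ c.ne_zero).le

/-- **Frobenius acts on the tame character by the `q`-th power.** -/
theorem tameHom_conj_frobenius {φ τ : L ≃ₐ[K] L} {q : ℕ} (hφ : A.IsFrobeniusAt φ q)
    (hτ : τ ∈ A.inertiaSubgroupIn K) (c : Lˣ) :
    tameHom A (conj_mem_inertiaIn A hφ.mem_decompositionSubgroup hτ) c = tameHom A hτ c ^ q := by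
  have hφD := hφ.mem_decompositionSubgroup
  have hτD := mem_decomposition_of_mem_inertiaIn A hτ
  set c' : Lˣ := Units.map ((φ⁻¹ : L ≃ₐ[K] L) : L →* L) c with hc'
  have hc'v : (c' : L) = φ⁻¹ (c : L) := rfl
  have hv : A.valuation (c' : L) = A.valuation (c : L) := by
    rw [hc'v]
    exact valuation_apply_of_mem_decomposition A (inv_mem hφD) (c : L)
  rw [← tameHom_eq_of_valuation_eq A hτ c' c hv]
  apply Units.ext
  rw [Units.val_pow_eq_pow_val, ← hφ.smul_residue_eq,
    coe_tameHom A _ c (apply_div_mem A (mem_decomposition_of_mem_inertiaIn A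
      (conj_mem_inertiaIn A hφD hτ)) c),
    coe_tameHom A hτ c' (apply_div_mem A hτD c'),
    ← IsLocalRing.ResidueField.residue_smul]
  congr 1
  apply Subtype.ext
  show (φ * τ * φ⁻¹) (c : L) / c = φ (τ (c' : L) / c')
  rw [map_div₀, hc'v]
  have h1 : φ (φ⁻¹ (c : L)) = c := by
    show (φ * φ⁻¹) (c : L) = c
    rw [mul_inv_cancel]; rfl
  rw [h1]
  rfl

end general

/-- Every element of `f(I)` has order prime to the residue characteristic of `A`. -/
def PrimeToResChar {K L : Type*} [Field K] [Field L] [Algebra K L] (A : ValuationSubring L)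
    {G : Type*} [Group G] (f : (L ≃ₐ[K] L) →* G) : Prop :=
  ∀ τ ∈ A.inertiaSubgroupIn K, ∃ m : ℕ, A.valuation (m : L) = 1 ∧ f τ ^ m = 1

section finiteLevel

variable {K L : Type*} [Field K] [Field L] [Algebra K L] [IsGalois K L]
  (A : ValuationSubring L)

variable {A}

/-- Faithfulness: an element of inertia with trivial tame character on the fixed field of
`ker f` is killed by `f`. -/
theorem map_eq_one_of_tameHom_eq_one {G : Type*} [Group G] {f : (L ≃ₐ[K] L) →* G}
    (hf : FiniteLevel f) (hp : PrimeToResChar A f) {τ : L ≃ₐ[K] L}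
    (hτ : τ ∈ A.inertiaSubgroupIn K)
    (h : ∀ c : Lˣ, (c : L) ∈ IntermediateField.fixedField f.ker → tameHom A hτ c = 1) :
    f τ = 1 := by
  by_contra hne
  obtain ⟨m, hm, hfm⟩ := hp τ hτ
  obtain ⟨c, hc, hc1⟩ := exists_tameHom_ne_one A hf hτ hm hfm hne
  exact hc1 (h c hc)

/-- `f` is commutative on inertia. -/
theorem map_mul_comm_of_mem_inertiaIn {G : Type*} [Group G] {f : (L ≃ₐ[K] L) →* G}
    (hf : FiniteLevel f) (hp : PrimeToResChar A f) {σ τ : L ≃ₐ[K] L}
    (hσ : σ ∈ A.inertiaSubgroupIn K) (hτ : τ ∈ A.inertiaSubgroupIn K) :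
    f σ * f τ = f τ * f σ := by
  have hγ : σ * τ * (σ⁻¹ * τ⁻¹) ∈ A.inertiaSubgroupIn K :=
    mul_mem (mul_mem hσ hτ) (mul_mem (inv_mem hσ) (inv_mem hτ))
  have h1 : f (σ * τ * (σ⁻¹ * τ⁻¹)) = 1 := by
    apply map_eq_one_of_tameHom_eq_one hf hp hγ
    intro c _
    rw [tameHom_mul A (mul_mem hσ hτ) (mul_mem (inv_mem hσ) (inv_mem hτ)),
      tameHom_mul A hσ hτ, tameHom_mul A (inv_mem hσ) (inv_mem hτ), tameHom_inv A hσ,
      tameHom_inv A hτ]
    rw [mul_mul_mul_comm, mul_inv_cancel, mul_inv_cancel, one_mul]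
  rw [map_mul, map_mul, map_mul, map_inv, map_inv] at h1
  have h2 : f σ * f τ = (f σ * f τ * ((f σ)⁻¹ * (f τ)⁻¹)) * (f τ * f σ) := by group
  rw [h2, h1, one_mul]

/-- **Frobenius relation**: `f (φ τ φ⁻¹) = f τ ^ q` for `τ` in inertia and `φ` a Frobenius. -/
theorem map_conj_frobenius {G : Type*} [Group G] {f : (L ≃ₐ[K] L) →* G}
    (hf : FiniteLevel f) (hp : PrimeToResChar A f) {φ τ : L ≃ₐ[K] L} {q : ℕ}
    (hφ : A.IsFrobeniusAt φ q) (hτ : τ ∈ A.inertiaSubgroupIn K) :
    f (φ * τ * φ⁻¹) = f τ ^ q := by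
  have hc := conj_mem_inertiaIn A hφ.mem_decompositionSubgroup hτ
  have hγ : φ * τ * φ⁻¹ * (τ ^ q)⁻¹ ∈ A.inertiaSubgroupIn K :=
    mul_mem hc (inv_mem (pow_mem hτ q))
  have h1 : f (φ * τ * φ⁻¹ * (τ ^ q)⁻¹) = 1 := by
    apply map_eq_one_of_tameHom_eq_one hf hp hγ
    intro c _
    rw [tameHom_mul A hc (inv_mem (pow_mem hτ q)), tameHom_inv A (pow_mem hτ q),
      tameHom_pow A hτ, tameHom_conj_frobenius A hφ hτ, mul_inv_cancel]
  rw [map_mul, map_inv, map_pow, mul_inv_eq_one] at h1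
  exact h1

end finiteLevel

end Fermat.Agent.S56.H794
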