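import Mathlib
import Fermat.Prelude.Def_FLTPrelim_Ramification
import Fermat.Prelude.Def_EllipticCurve_FrobeniusTrace
import Fermat.Agent.A2.H708.Tame
import Fermat.Agent.S56.H794.TameFaithful
import Fermat.Agent.S56.H794.TameFrob

/-!
# S56 / LOC-TAME (helper794), part 3: images of inertia of prime exponent are cyclic

`L/K` Galois, `A` a valuation subring of `L` whose restriction to `K` has cyclic value group
(`RankOneOver K A`), `ℓ` a prime which is a unit of `A`, `f` a homomorphism of finite level on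
`Gal(L/K)` with `f τ ^ ℓ = 1` for all `τ` in the inertia group `I` of `A`.
Then `f(I)` is cyclic (of order `1` or `ℓ`):

* `exists_pow_eq_of_exponent_prime` : `σ τ ∈ I`, `f τ ≠ 1` ⟹ `∃ j < ℓ, f σ = f τ ^ j`.
* `exists_generator_of_exponent_prime` : `∃ τ₀ ∈ I, ∀ σ ∈ I, ∃ j < ℓ, f σ = f τ₀ ^ j`.

Auxiliary:
* `exists_pow_valuation_eq_algebraMap` : some positive power of the valuation of an element
  of `Lˣ` is the valuation of an element of `Kˣ` (`L/K` algebraic).
* `exists_coprime_zpow_div_mem` : rank-one dependence in a commutative group modulo a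
  subgroup with torsion-free quotient.
-/

set_option autoImplicit false

namespace Fermat.Agent.S56.H794

open Fermat.Agent.A2.H708

/-- Rank-one dependence: if `x ^ n ≡ t ^ r` and `y ^ n₀ ≡ t ^ r₀` modulo a subgroup `U` with
torsion-free quotient, and `y ∉ U`, then `x ^ a ≡ y ^ b` for coprime integers `a`, `b`. -/
theorem exists_coprime_zpow_div_mem {G : Type*} [CommGroup G] (U : Subgroup G)
    (htf : ∀ (x : G) (n : ℕ), 0 < n → x ^ n ∈ U → x ∈ U) (t x y : G)
    {n n₀ : ℕ} (hn : 0 < n) (hn₀ : 0 < n₀) {r r₀ : ℤ}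
    (hx : x ^ n / t ^ r ∈ U) (hy : y ^ n₀ / t ^ r₀ ∈ U) (hyU : y ∉ U) :
    ∃ a b : ℤ, IsCoprime a b ∧ x ^ a / y ^ b ∈ U := by
  have hr₀ : r₀ ≠ 0 := by
    rintro rfl
    rw [zpow_zero, div_one] at hy
    exact hyU (htf y n₀ hn₀ hy)
  set a₀ : ℤ := (n : ℤ) * r₀ with ha₀
  set b₀ : ℤ := (n₀ : ℤ) * r with hb₀
  have ha₀0 : a₀ ≠ 0 := mul_ne_zero (by exact_mod_cast hn.ne') hr₀
  have h0 : x ^ a₀ / y ^ b₀ ∈ U := by
    have h1 : (x ^ n / t ^ r) ^ r₀ / (y ^ n₀ / t ^ r₀) ^ r ∈ U :=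
      U.div_mem (U.zpow_mem hx r₀) (U.zpow_mem hy r)
    have h2 : (x ^ n / t ^ r) ^ r₀ / (y ^ n₀ / t ^ r₀) ^ r = x ^ a₀ / y ^ b₀ := by
      rw [div_zpow, div_zpow, ha₀, hb₀, zpow_mul, zpow_mul, zpow_natCast, zpow_natCast,
        ← zpow_mul, ← zpow_mul, mul_comm r r₀]
      rw [div_div_div_comm, div_self', div_one]
    rwa [h2] at h1
  have hg : 0 < Int.gcd a₀ b₀ := Int.gcd_pos_of_ne_zero_left _ ha₀0
  refine ⟨a₀ / (Int.gcd a₀ b₀ : ℤ), b₀ / (Int.gcd a₀ b₀ : ℤ), ?_, ?_⟩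
  · rw [Int.isCoprime_iff_gcd_eq_one]
    exact Int.gcd_div_gcd_div_gcd hg
  · apply htf _ (Int.gcd a₀ b₀) hg
    have ha : a₀ / (Int.gcd a₀ b₀ : ℤ) * (Int.gcd a₀ b₀ : ℤ) = a₀ :=
      Int.ediv_mul_cancel (Int.gcd_dvd_left a₀ b₀)
    have hb : b₀ / (Int.gcd a₀ b₀ : ℤ) * (Int.gcd a₀ b₀ : ℤ) = b₀ :=
      Int.ediv_mul_cancel (Int.gcd_dvd_right a₀ b₀)
    rw [div_pow, ← zpow_natCast, ← zpow_natCast, ← zpow_mul, ← zpow_mul, ha, hb]
    exact h0

section general

variable {K L : Type*} [Field K] [Field L] [Algebra K L] [Algebra.IsAlgebraic K L]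
  (A : ValuationSubring L)

/-- In an algebraic extension, a positive power of the valuation of any nonzero element is the
valuation of a nonzero element of the base field. -/
theorem exists_pow_valuation_eq_algebraMap (c : L) (hc : c ≠ 0) :
    ∃ n : ℕ, 0 < n ∧ ∃ a : K, a ≠ 0 ∧ A.valuation c ^ n = A.valuation (algebraMap K L a) := by
  classical
  have hint : IsIntegral K c := (Algebra.IsAlgebraic.isAlgebraic c).isIntegral
  set P := minpoly K c with hP
  have hP0 : P ≠ 0 := minpoly.ne_zero hint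
  have hroot : Polynomial.aeval c P = 0 := minpoly.aeval K c
  set term : ℕ → L := fun i => algebraMap K L (P.coeff i) * c ^ i with hterm
  have hsum : ∑ i ∈ P.support, term i = 0 := by
    rw [← hroot, Polynomial.aeval_def, Polynomial.eval₂_eq_sum, Polynomial.sum_def]
  have hvc : A.valuation c ≠ 0 := (Valuation.ne_zero_iff _).mpr hc
  have hterm0 : ∀ i ∈ P.support, A.valuation (term i) ≠ 0 := by
    intro i hi
    rw [Valuation.ne_zero_iff]
    refine mul_ne_zero ?_ (pow_ne_zero i hc)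
    rw [Ne, map_eq_zero_iff _ (algebraMap K L).injective]
    exact Polynomial.mem_support_iff.mp hi
  have hne : P.support.Nonempty := by
    rw [Finset.nonempty_iff_ne_empty, Ne, Polynomial.support_eq_empty]
    exact hP0
  obtain ⟨j, hj, hjmax⟩ := Finset.exists_max_image P.support (fun i => A.valuation (term i)) hne
  have hex : ∃ i ∈ P.support, i ≠ j ∧ A.valuation (term i) = A.valuation (term j) := by
    by_contra hcon
    have hlt : ∀ i ∈ P.support \ {j}, A.valuation (term i) < A.valuation (term j) := by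
      intro i hi
      rw [Finset.mem_sdiff, Finset.mem_singleton] at hi
      refine lt_of_le_of_ne (hjmax i hi.1) ?_
      intro heq
      exact hcon ⟨i, hi.1, hi.2, heq⟩
    have := Valuation.map_sum_eq_of_lt A.valuation hj hlt
    rw [hsum, map_zero] at this
    exact hterm0 j hj this.symm
  obtain ⟨i, hi, hij, heq⟩ := hex
  have hai : P.coeff i ≠ 0 := Polynomial.mem_support_iff.mp hi
  have haj : P.coeff j ≠ 0 := Polynomial.mem_support_iff.mp hj
  have hvi : A.valuation (algebraMap K L (P.coeff i)) ≠ 0 := by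
    rw [Valuation.ne_zero_iff, Ne, map_eq_zero_iff _ (algebraMap K L).injective]
    exact hai
  have hvj : A.valuation (algebraMap K L (P.coeff j)) ≠ 0 := by
    rw [Valuation.ne_zero_iff, Ne, map_eq_zero_iff _ (algebraMap K L).injective]
    exact haj
  simp only [hterm, map_mul, map_pow] at heq
  -- v(a_i) v(c)^i = v(a_j) v(c)^j
  rcases lt_or_gt_of_ne hij with hlt | hlt
  · -- i < j : v(c)^(j-i) = v(a_i / a_j)
    refine ⟨j - i, Nat.sub_pos_of_lt hlt, P.coeff i / P.coeff j, div_ne_zero hai haj, ?_⟩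
    rw [map_div₀, map_div₀, eq_div_iff hvj]
    have hji : j = (j - i) + i := by omega
    have h1 : A.valuation c ^ j = A.valuation c ^ (j - i) * A.valuation c ^ i := by
      conv_lhs => rw [hji, pow_add]
    rw [h1] at heq
    have h2 : A.valuation c ^ i ≠ 0 := pow_ne_zero _ hvc
    apply mul_right_cancel₀ h2
    rw [heq, mul_assoc]
    exact mul_left_comm _ _ _
  · -- j < i : v(c)^(i-j) = v(a_j / a_i)
    refine ⟨i - j, Nat.sub_pos_of_lt hlt, P.coeff j / P.coeff i, div_ne_zero haj hai, ?_⟩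
    rw [map_div₀, map_div₀, eq_div_iff hvi]
    have hji : i = (i - j) + j := by omega
    have h1 : A.valuation c ^ i = A.valuation c ^ (i - j) * A.valuation c ^ j := by
      conv_lhs => rw [hji, pow_add]
    rw [h1] at heq
    have h2 : A.valuation c ^ j ≠ 0 := pow_ne_zero _ hvc
    apply mul_right_cancel₀ h2
    rw [← heq, mul_assoc]
    exact mul_left_comm _ _ _

/-- The restriction of the valuation of `A` to `K` has cyclic value group, generated by the
valuation of `t`. -/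
def RankOneOver (K : Type*) {L : Type*} [Field K] [Field L] [Algebra K L]
    (A : ValuationSubring L) : Prop :=
  ∃ t : Lˣ, ∀ a : K, a ≠ 0 → ∃ z : ℤ, A.valuation (algebraMap K L a) = A.valuation ((t ^ z : Lˣ) : L)

/-- The quotient of `Lˣ` by the unit group of `A` is torsion-free. -/
theorem mem_unitGroup_of_pow_mem (x : Lˣ) (n : ℕ) (hn : 0 < n) (h : x ^ n ∈ A.unitGroup) :
    x ∈ A.unitGroup := by
  rw [ValuationSubring.mem_unitGroup_iff] at h ⊢
  rw [Units.val_pow_eq_pow_val, map_pow] at h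
  have hv0 : A.valuation (x : L) ≠ 0 := (Valuation.ne_zero_iff _).mpr x.ne_zero
  rcases lt_trichotomy (A.valuation (x : L)) 1 with h1 | h1 | h1
  · exact absurd h (pow_lt_one₀ zero_le h1 hn.ne').ne
  · exact h1
  · exact absurd h (one_lt_pow₀ h1 hn.ne').ne'

/-- Rank-one dependence of two elements of `Lˣ` modulo units. -/
theorem exists_coprime_zpow_div_mem_unitGroup (hR : RankOneOver K A) (c c₀ : Lˣ)
    (hc₀ : c₀ ∉ A.unitGroup) :
    ∃ a b : ℤ, IsCoprime a b ∧ c ^ a / c₀ ^ b ∈ A.unitGroup := by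
  obtain ⟨t, ht⟩ := hR
  obtain ⟨n, hn, a, ha, hna⟩ := exists_pow_valuation_eq_algebraMap (K := K) A (c : L) c.ne_zero
  obtain ⟨n₀, hn₀, a₀, ha₀, hna₀⟩ :=
    exists_pow_valuation_eq_algebraMap (K := K) A (c₀ : L) c₀.ne_zero
  obtain ⟨r, hr⟩ := ht a ha
  obtain ⟨r₀, hr₀⟩ := ht a₀ ha₀
  have key : ∀ (x : Lˣ) (m : ℕ) (z : ℤ),
      A.valuation (x : L) ^ m = A.valuation ((t ^ z : Lˣ) : L) → x ^ m / t ^ z ∈ A.unitGroup := by
    intro x m z h
    rw [ValuationSubring.mem_unitGroup_iff, Units.val_div_eq_div_val, map_div₀,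
      Units.val_pow_eq_pow_val, map_pow, h]
    exact div_self ((Valuation.ne_zero_iff _).mpr (Units.ne_zero _))
  exact exists_coprime_zpow_div_mem A.unitGroup (mem_unitGroup_of_pow_mem A) t c c₀ hn hn₀
    (key c n r (hna.trans hr)) (key c₀ n₀ r₀ (hna₀.trans hr₀)) hc₀

end general

/-- An element killed by two coprime integer exponents is trivial. -/
theorem eq_one_of_zpow_eq_one_of_isCoprime {G : Type*} [Group G] (u : G) {a b : ℤ}
    (h : IsCoprime a b) (ha : u ^ a = 1) (hb : u ^ b = 1) : u = 1 := by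
  obtain ⟨s, t, hst⟩ := h
  have h1 : u ^ (s * a + t * b) = 1 := by
    rw [zpow_add, mul_comm s a, mul_comm t b, zpow_mul, zpow_mul, ha, hb, one_zpow, one_zpow,
      one_mul]
  rwa [hst, zpow_one] at h1

section finiteLevel

variable {K L : Type*} [Field K] [Field L] [Algebra K L] [IsGalois K L]
  {A : ValuationSubring L}

omit [IsGalois K L] in
/-- Exponent `ℓ` (a unit of `A`) implies `PrimeToResChar`. -/
theorem primeToResChar_of_exponent {G : Type*} [Group G] {f : (L ≃ₐ[K] L) →* G} {ℓ : ℕ}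
    (hℓv : A.valuation (ℓ : L) = 1) (hexp : ∀ τ ∈ A.inertiaSubgroupIn K, f τ ^ ℓ = 1) :
    PrimeToResChar A f :=
  fun τ hτ => ⟨ℓ, hℓv, hexp τ hτ⟩

/-- On the fixed field of `ker f` the tame character of `τ` is killed by any exponent killing
`f τ`. -/
theorem tameHom_pow_eq_one_of_map_pow_eq_one {G : Type*} [Group G] {f : (L ≃ₐ[K] L) →* G}
    {τ : L ≃ₐ[K] L} (hτ : τ ∈ A.inertiaSubgroupIn K) {m : ℕ} (hfm : f τ ^ m = 1) (c : Lˣ)
    (hc : (c : L) ∈ IntermediateField.fixedField f.ker) : tameHom A hτ c ^ m = 1 := by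
  rw [← tameHom_pow A hτ m c]
  apply tameHom_eq_one_of_fixed
  exact (IntermediateField.mem_fixedField_iff f.ker _).mp hc (τ ^ m)
    (by rw [MonoidHom.mem_ker, map_pow, hfm])

/-- **Images of inertia of prime exponent `ℓ ≠` residue characteristic are cyclic.** -/
theorem exists_pow_eq_of_exponent_prime {G : Type*} [Group G] {f : (L ≃ₐ[K] L) →* G}
    (hf : FiniteLevel f) (hR : RankOneOver K A) {ℓ : ℕ} (hℓ : ℓ.Prime)
    (hℓv : A.valuation (ℓ : L) = 1) (hexp : ∀ τ ∈ A.inertiaSubgroupIn K, f τ ^ ℓ = 1)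
    {σ τ : L ≃ₐ[K] L} (hσ : σ ∈ A.inertiaSubgroupIn K) (hτ : τ ∈ A.inertiaSubgroupIn K)
    (hne : f τ ≠ 1) : ∃ j : ℕ, j < ℓ ∧ f σ = f τ ^ j := by
  have hp : PrimeToResChar A f := primeToResChar_of_exponent hℓv hexp
  obtain ⟨c₀, hc₀E, hζ⟩ := exists_tameHom_ne_one A hf hτ hℓv (hexp τ hτ) hne
  have hζℓ : tameHom A hτ c₀ ^ ℓ = 1 :=
    tameHom_pow_eq_one_of_map_pow_eq_one hτ (hexp τ hτ) c₀ hc₀E
  have hξℓ : tameHom A hσ c₀ ^ ℓ = 1 :=
    tameHom_pow_eq_one_of_map_pow_eq_one hσ (hexp σ hσ) c₀ hc₀E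
  have hord : orderOf (tameHom A hτ c₀) = ℓ :=
    @orderOf_eq_prime _ _ _ ℓ (Fact.mk hℓ) hζℓ hζ
  have hprim : IsPrimitiveRoot (tameHom A hτ c₀) ℓ := hord ▸ IsPrimitiveRoot.orderOf _
  have hprim' : IsPrimitiveRoot
      ((tameHom A hτ c₀ : (IsLocalRing.ResidueField A)ˣ) : IsLocalRing.ResidueField A) ℓ :=
    IsPrimitiveRoot.coe_units_iff.mpr hprim
  haveI : NeZero ℓ := ⟨hℓ.ne_zero⟩
  obtain ⟨j, hj, hjξ⟩ := hprim'.eq_pow_of_pow_eq_one
    (ξ := ((tameHom A hσ c₀ : (IsLocalRing.ResidueField A)ˣ) : IsLocalRing.ResidueField A))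
    (by rw [← Units.val_pow_eq_pow_val, hξℓ, Units.val_one])
  have hjξ' : tameHom A hτ c₀ ^ j = tameHom A hσ c₀ :=
    Units.ext (by rw [Units.val_pow_eq_pow_val]; exact hjξ)
  refine ⟨j, hj, ?_⟩
  have hc₀U : c₀ ∉ A.unitGroup := by
    intro h
    exact hζ (tameHom_eq_one_of_valuation_eq_one A hτ c₀
      ((ValuationSubring.mem_unitGroup_iff A c₀).mp h))
  have hγ : σ * (τ ^ j)⁻¹ ∈ A.inertiaSubgroupIn K := mul_mem hσ (inv_mem (pow_mem hτ j))
  have h1 : f (σ * (τ ^ j)⁻¹) = 1 := by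
    apply map_eq_one_of_tameHom_eq_one hf hp hγ
    intro c hcE
    rw [tameHom_mul A hσ (inv_mem (pow_mem hτ j)), tameHom_inv A (pow_mem hτ j),
      tameHom_pow A hτ]
    obtain ⟨a, b, hab, hmem⟩ := exists_coprime_zpow_div_mem_unitGroup (K := K) A hR c c₀ hc₀U
    have hv : A.valuation (((c ^ a / c₀ ^ b : Lˣ)) : L) = 1 :=
      (ValuationSubring.mem_unitGroup_iff A _).mp hmem
    have hxa : tameHom A hσ c ^ a = tameHom A hσ c₀ ^ b := by
      have := tameHom_eq_one_of_valuation_eq_one A hσ _ hv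
      rwa [map_div, map_zpow, map_zpow, div_eq_one] at this
    have hya : tameHom A hτ c ^ a = tameHom A hτ c₀ ^ b := by
      have := tameHom_eq_one_of_valuation_eq_one A hτ _ hv
      rwa [map_div, map_zpow, map_zpow, div_eq_one] at this
    have hxℓ : tameHom A hσ c ^ ℓ = 1 :=
      tameHom_pow_eq_one_of_map_pow_eq_one hσ (hexp σ hσ) c hcE
    have hyℓ : tameHom A hτ c ^ ℓ = 1 :=
      tameHom_pow_eq_one_of_map_pow_eq_one hτ (hexp τ hτ) c hcE
    set x := tameHom A hσ c with hx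
    set y := tameHom A hτ c with hy
    set ζ := tameHom A hτ c₀ with hζdef
    set ξ := tameHom A hσ c₀ with hξdef
    have hua : (x * (y ^ j)⁻¹) ^ a = 1 := by
      rw [mul_zpow, inv_zpow, ← zpow_natCast y j, ← zpow_mul, mul_comm (j : ℤ) a, zpow_mul,
        hxa, hya, ← hjξ', ← zpow_natCast ζ j, ← zpow_mul, ← zpow_mul, mul_comm (j : ℤ) b,
        mul_inv_cancel]
    have huℓ : (x * (y ^ j)⁻¹) ^ (ℓ : ℤ) = 1 := by
      rw [zpow_natCast, mul_pow, inv_pow, ← pow_mul, mul_comm j ℓ, pow_mul, hxℓ, hyℓ, one_pow,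
        inv_one, mul_one]
    by_cases hdvd : (ℓ : ℤ) ∣ a
    · exfalso
      -- then ℓ ∤ b, ζ ^ b = y ^ a = 1, so ζ = 1
      obtain ⟨a', ha'⟩ := hdvd
      have hζb : ζ ^ b = 1 := by
        rw [← hya, ha', zpow_mul, zpow_natCast, hyℓ, one_zpow]
      have hcop : IsCoprime (ℓ : ℤ) b := by
        rw [ha'] at hab
        exact hab.of_mul_left_left
      have hζℓ' : ζ ^ (ℓ : ℤ) = 1 := by rw [zpow_natCast]; exact hζℓ
      exact hζ (eq_one_of_zpow_eq_one_of_isCoprime ζ hcop hζℓ' hζb)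
    · have hcop : IsCoprime a (ℓ : ℤ) := by
        have hprime : Prime (ℓ : ℤ) := Nat.prime_iff_prime_int.mp hℓ
        exact (hprime.coprime_iff_not_dvd.mpr hdvd).symm
      exact eq_one_of_zpow_eq_one_of_isCoprime _ hcop hua huℓ
  rw [map_mul, map_inv, map_pow, mul_inv_eq_one] at h1
  exact h1

/-- Existence of a generator of `f(I)` when `f(I)` has prime exponent `ℓ`. -/
theorem exists_generator_of_exponent_prime {G : Type*} [Group G] {f : (L ≃ₐ[K] L) →* G}
    (hf : FiniteLevel f) (hR : RankOneOver K A) {ℓ : ℕ} (hℓ : ℓ.Prime)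
    (hℓv : A.valuation (ℓ : L) = 1) (hexp : ∀ τ ∈ A.inertiaSubgroupIn K, f τ ^ ℓ = 1) :
    ∃ τ₀ ∈ A.inertiaSubgroupIn K, ∀ σ ∈ A.inertiaSubgroupIn K, ∃ j : ℕ, j < ℓ ∧ f σ = f τ₀ ^ j := by
  by_cases h : ∃ τ ∈ A.inertiaSubgroupIn K, f τ ≠ 1
  · obtain ⟨τ, hτ, hne⟩ := h
    exact ⟨τ, hτ, fun σ hσ => exists_pow_eq_of_exponent_prime hf hR hℓ hℓv hexp hσ hτ hne⟩
  · refine ⟨1, one_mem _, fun σ hσ => ⟨0, hℓ.pos, ?_⟩⟩
    rw [pow_zero]
    by_contra hne
    exact h ⟨σ, hσ, hne⟩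

end finiteLevel

end Fermat.Agent.S56.H794
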