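import Mathlib
import Fermat.Prelude.Def_FLTPrelim_Ramification
import Fermat.Prelude.Def_EllipticCurve_FrobeniusTrace
import Fermat.Agent.S56.H794.TameFaithful
import Fermat.Agent.S56.H794.TameFrob
import Fermat.Agent.S56.H794.TameCyclic

/-!
# S56 / LOC-TAME (helper794), part 4: tame inertia over `ℚ` (Prelude form)

`P` a valuation subring of `ℚ̄` lying over the prime `q`, `I = P.inertiaSubgroupIn ℚ`,
`f : G_ℚ →* G` of finite level, `ℓ ≠ q` a prime with `f τ ^ ℓ = 1` for all `τ ∈ I`.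

* `inertia_image_cyclic` : `∃ τ₀ ∈ I, ∀ σ ∈ I, ∃ j < ℓ, f σ = f τ₀ ^ j`.
* `inertia_image_pow_of_ne_one` : any `τ ∈ I` with `f τ ≠ 1` is such a generator.
* `inertia_frobenius_relation` : `f (φ τ φ⁻¹) = f τ ^ q` for every Frobenius `φ` at `P`.
* `inertia_image_comm` : `f` is commutative on `I`.
-/

set_option autoImplicit false

namespace Fermat.Agent.S56.H794

open Fermat.Agent.A2.H708

section rat

variable {L : Type*} [Field L] [CharZero L] (P : ValuationSubring L)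

omit [CharZero L] in
/-- Integers prime to `q` are units of a valuation ring lying over `q`. -/
theorem valuation_natCast_eq_one_of_not_dvd {q : ℕ} (hq : q.Prime) (hP : P.LiesOverPrime q)
    {n : ℕ} (hn : ¬ q ∣ n) : P.valuation (n : L) = 1 := by
  have hle : P.valuation (n : L) ≤ 1 := (P.valuation_le_one_iff _).mpr (natCast_mem P n)
  refine le_antisymm hle (not_lt.mp fun hlt => ?_)
  have hqlt : P.valuation (q : L) < 1 := P.mem_nonunits_iff.mp hP
  have hcop : IsCoprime (n : ℤ) (q : ℤ) := by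
    rw [Int.isCoprime_iff_gcd_eq_one, Int.gcd_natCast_natCast]
    exact ((Nat.Prime.coprime_iff_not_dvd hq).mpr hn).symm
  obtain ⟨a, b, hab⟩ := hcop
  have h1 : ((a : L) * (n : L) + (b : L) * (q : L)) = 1 := by
    have := congrArg (fun z : ℤ => (z : L)) hab
    simpa using this
  have ha : P.valuation (a : L) ≤ 1 := (P.valuation_le_one_iff _).mpr (intCast_mem P a)
  have hb : P.valuation (b : L) ≤ 1 := (P.valuation_le_one_iff _).mpr (intCast_mem P b)
  have h2 : P.valuation ((a : L) * (n : L)) < 1 := by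
    rw [map_mul]
    exact lt_of_le_of_lt (mul_le_of_le_one_left zero_le ha) hlt
  have h3 : P.valuation ((b : L) * (q : L)) < 1 := by
    rw [map_mul]
    exact lt_of_le_of_lt (mul_le_of_le_one_left zero_le hb) hqlt
  have h4 : P.valuation ((a : L) * (n : L) + (b : L) * (q : L)) < 1 :=
    Valuation.map_add_lt _ h2 h3
  rw [h1, map_one] at h4
  exact lt_irrefl _ h4

/-- The valuation of a nonzero natural number is a power of the valuation of `q`. -/
theorem exists_valuation_natCast_eq_pow {q : ℕ} (hq : q.Prime) (hP : P.LiesOverPrime q)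
    {n : ℕ} (hn : n ≠ 0) : ∃ e : ℕ, P.valuation (n : L) = P.valuation (q : L) ^ e := by
  obtain ⟨e, n', hn', rfl⟩ := Nat.exists_eq_pow_mul_and_not_dvd hn q hq.ne_one
  refine ⟨e, ?_⟩
  rw [Nat.cast_mul, Nat.cast_pow, map_mul, map_pow,
    valuation_natCast_eq_one_of_not_dvd P hq hP hn', mul_one]

/-- The value group of `ℚ` under a valuation over `q` is generated by the valuation of `q`. -/
theorem rankOneOver_rat [Algebra ℚ L] {q : ℕ} (hq : q.Prime) (hP : P.LiesOverPrime q) :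
    RankOneOver ℚ P := by
  have hq0 : (q : L) ≠ 0 := Nat.cast_ne_zero.mpr hq.ne_zero
  refine ⟨Units.mk0 (q : L) hq0, fun a ha => ?_⟩
  have hnum : a.num.natAbs ≠ 0 := Int.natAbs_ne_zero.mpr (Rat.num_ne_zero.mpr ha)
  obtain ⟨e₁, h₁⟩ := exists_valuation_natCast_eq_pow P hq hP hnum
  obtain ⟨e₂, h₂⟩ := exists_valuation_natCast_eq_pow P hq hP a.den_ne_zero
  refine ⟨(e₁ : ℤ) - (e₂ : ℤ), ?_⟩
  have hcast : algebraMap ℚ L a = (a.num : L) / (a.den : L) := by
    rw [eq_ratCast, Rat.cast_def]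
  have hnumv : P.valuation ((a.num : ℤ) : L) = P.valuation ((a.num.natAbs : ℕ) : L) := by
    rcases Int.natAbs_eq a.num with h | h
    · conv_lhs => rw [h]
      simp
    · conv_lhs => rw [h]
      simp
  have hvq : P.valuation (q : L) ≠ 0 := (Valuation.ne_zero_iff _).mpr hq0
  rw [hcast, map_div₀, hnumv, h₁, h₂, Units.val_zpow_eq_zpow_val, Units.val_mk0, map_zpow₀,
    zpow_sub₀ hvq, zpow_natCast, zpow_natCast]

end rat

section prelude

/-- `G_ℚ` -/
local notation "GQ" => (AlgebraicClosure ℚ ≃ₐ[ℚ] AlgebraicClosure ℚ)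

/-- `ℚ̄/ℚ` is algebraic (for the `Algebra ℚ ℚ̄` instance found by instance search). -/
theorem isAlgebraic_Qbar_h794 : Algebra.IsAlgebraic ℚ (AlgebraicClosure ℚ) :=
  AlgebraicClosure.isAlgebraic ℚ

/-- `ℚ̄/ℚ` is Galois (for the `Algebra ℚ ℚ̄` instance found by instance search). -/
theorem isGalois_Qbar_h794 : IsGalois ℚ (AlgebraicClosure ℚ) := by
  haveI : Algebra.IsAlgebraic ℚ (AlgebraicClosure ℚ) := isAlgebraic_Qbar_h794
  haveI : IsAlgClosure ℚ (AlgebraicClosure ℚ) := ⟨inferInstance, inferInstance⟩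
  haveI : Normal ℚ (AlgebraicClosure ℚ) := IsAlgClosure.normal ℚ (AlgebraicClosure ℚ)
  exact isGalois_iff.mpr ⟨inferInstance, inferInstance⟩

attribute [local instance] isAlgebraic_Qbar_h794 isGalois_Qbar_h794

variable {G : Type*} [Group G] {f : GQ →* G} {P : ValuationSubring (AlgebraicClosure ℚ)}
  {q ℓ : ℕ}

/-- A prime `ℓ ≠ q` is a unit at `P | q`. -/
theorem valuation_prime_eq_one (hq : q.Prime) (hP : P.LiesOverPrime q) (hℓ : ℓ.Prime)
    (hℓq : ℓ ≠ q) : P.valuation ((ℓ : ℕ) : AlgebraicClosure ℚ) = 1 :=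
  valuation_natCast_eq_one_of_not_dvd P hq hP
    (fun h => hℓq ((Nat.prime_dvd_prime_iff_eq hq hℓ).mp h).symm)

/-- **Tame inertia, cyclicity.**  If `f(I_P)` has prime exponent `ℓ ≠ q` then every `τ ∈ I_P`
with `f τ ≠ 1` generates `f(I_P)`. -/
theorem inertia_image_pow_of_ne_one (hf : FiniteLevel f) (hq : q.Prime)
    (hP : P.LiesOverPrime q) (hℓ : ℓ.Prime) (hℓq : ℓ ≠ q)
    (hexp : ∀ τ ∈ P.inertiaSubgroupIn ℚ, f τ ^ ℓ = 1) {σ τ : GQ}
    (hσ : σ ∈ P.inertiaSubgroupIn ℚ) (hτ : τ ∈ P.inertiaSubgroupIn ℚ) (hne : f τ ≠ 1) :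
    ∃ j : ℕ, j < ℓ ∧ f σ = f τ ^ j :=
  exists_pow_eq_of_exponent_prime hf (rankOneOver_rat P hq hP) hℓ
    (valuation_prime_eq_one hq hP hℓ hℓq) hexp hσ hτ hne

/-- **Tame inertia, cyclicity (existence of a generator).** -/
theorem inertia_image_cyclic (hf : FiniteLevel f) (hq : q.Prime)
    (hP : P.LiesOverPrime q) (hℓ : ℓ.Prime) (hℓq : ℓ ≠ q)
    (hexp : ∀ τ ∈ P.inertiaSubgroupIn ℚ, f τ ^ ℓ = 1) :
    ∃ τ₀ ∈ P.inertiaSubgroupIn ℚ, ∀ σ ∈ P.inertiaSubgroupIn ℚ,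
      ∃ j : ℕ, j < ℓ ∧ f σ = f τ₀ ^ j :=
  exists_generator_of_exponent_prime hf (rankOneOver_rat P hq hP) hℓ
    (valuation_prime_eq_one hq hP hℓ hℓq) hexp

/-- **Tame inertia, Frobenius relation**: `f (φ τ φ⁻¹) = f τ ^ q`. -/
theorem inertia_frobenius_relation (hf : FiniteLevel f) (hq : q.Prime)
    (hP : P.LiesOverPrime q) (hℓ : ℓ.Prime) (hℓq : ℓ ≠ q)
    (hexp : ∀ τ ∈ P.inertiaSubgroupIn ℚ, f τ ^ ℓ = 1) {φ τ : GQ}
    (hφ : P.IsFrobeniusAt φ q) (hτ : τ ∈ P.inertiaSubgroupIn ℚ) :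
    f (φ * τ * φ⁻¹) = f τ ^ q :=
  map_conj_frobenius hf (primeToResChar_of_exponent (valuation_prime_eq_one hq hP hℓ hℓq) hexp)
    hφ hτ

/-- **Tame inertia, commutativity.** -/
theorem inertia_image_comm (hf : FiniteLevel f) (hq : q.Prime)
    (hP : P.LiesOverPrime q) (hℓ : ℓ.Prime) (hℓq : ℓ ≠ q)
    (hexp : ∀ τ ∈ P.inertiaSubgroupIn ℚ, f τ ^ ℓ = 1) {σ τ : GQ}
    (hσ : σ ∈ P.inertiaSubgroupIn ℚ) (hτ : τ ∈ P.inertiaSubgroupIn ℚ) :
    f σ * f τ = f τ * f σ :=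
  map_mul_comm_of_mem_inertiaIn hf
    (primeToResChar_of_exponent (valuation_prime_eq_one hq hP hℓ hℓq) hexp) hσ hτ

end prelude

end Fermat.Agent.S56.H794
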