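import Mathlib

/-!
# S56 / LOC-MIN (helper794): endomorphisms of `k[ε] ⊗ V`

`dualEnd A B = A ⊗ 1 + ε • (B ⊗ 1)` for `A B : End_k V`.  This is an injective map
`End_k V × End_k V → End_{k[ε]} (k[ε] ⊗_k V)` with
`dualEnd A B * dualEnd A' B' = dualEnd (A A') (A B' + B A')`.
-/

set_option autoImplicit false

open scoped TensorProduct

noncomputable section

namespace Fermat.Agent.S56.H794

variable {k : Type*} [Field k] {V : Type*} [AddCommGroup V] [Module k V]

/-- `A ⊗ 1 + ε • (B ⊗ 1)` as an endomorphism of `k[ε] ⊗ V`. -/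
def dualEnd (A B : Module.End k V) : Module.End (DualNumber k) (DualNumber k ⊗[k] V) :=
  A.baseChange (DualNumber k) + (DualNumber.eps : DualNumber k) • B.baseChange (DualNumber k)

theorem dualEnd_apply_tmul (A B : Module.End k V) (x : DualNumber k) (v : V) :
    dualEnd A B (x ⊗ₜ[k] v) = x ⊗ₜ[k] A v + (DualNumber.eps * x) ⊗ₜ[k] B v := by
  simp only [dualEnd, LinearMap.add_apply, LinearMap.smul_apply, LinearMap.baseChange_tmul,
    TensorProduct.smul_tmul', smul_eq_mul]

theorem dualEnd_ext {f g : Module.End (DualNumber k) (DualNumber k ⊗[k] V)}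
    (h : ∀ (x : DualNumber k) (v : V), f (x ⊗ₜ[k] v) = g (x ⊗ₜ[k] v)) : f = g := by
  apply LinearMap.ext
  intro w
  induction w using TensorProduct.induction_on with
  | zero => simp only [map_zero]
  | tmul x v => exact h x v
  | add x y hx hy => rw [map_add, map_add, hx, hy]

theorem dualEnd_one_zero : dualEnd (1 : Module.End k V) 0 = 1 := by
  apply dualEnd_ext
  intro x v
  rw [dualEnd_apply_tmul, Module.End.one_apply, Module.End.one_apply, LinearMap.zero_apply,
    TensorProduct.tmul_zero, add_zero]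

theorem dualEnd_zero_zero : dualEnd (0 : Module.End k V) 0 = 0 := by
  apply dualEnd_ext
  intro x v
  rw [dualEnd_apply_tmul, LinearMap.zero_apply, LinearMap.zero_apply,
    TensorProduct.tmul_zero, TensorProduct.tmul_zero, add_zero]

theorem dualEnd_add (A B A' B' : Module.End k V) :
    dualEnd A B + dualEnd A' B' = dualEnd (A + A') (B + B') := by
  apply dualEnd_ext
  intro x v
  rw [LinearMap.add_apply, dualEnd_apply_tmul, dualEnd_apply_tmul, dualEnd_apply_tmul,
    LinearMap.add_apply, LinearMap.add_apply, TensorProduct.tmul_add, TensorProduct.tmul_add]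
  abel

theorem dualEnd_sub (A B A' B' : Module.End k V) :
    dualEnd A B - dualEnd A' B' = dualEnd (A - A') (B - B') := by
  apply dualEnd_ext
  intro x v
  rw [LinearMap.sub_apply, dualEnd_apply_tmul, dualEnd_apply_tmul, dualEnd_apply_tmul,
    LinearMap.sub_apply, LinearMap.sub_apply, TensorProduct.tmul_sub, TensorProduct.tmul_sub]
  abel

theorem dualEnd_mul (A B A' B' : Module.End k V) :
    dualEnd A B * dualEnd A' B' = dualEnd (A * A') (A * B' + B * A') := by
  apply dualEnd_ext
  intro x v
  rw [Module.End.mul_apply, dualEnd_apply_tmul, map_add, dualEnd_apply_tmul,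
    dualEnd_apply_tmul, dualEnd_apply_tmul]
  have h0 : (DualNumber.eps : DualNumber k) * (DualNumber.eps * x) = 0 := by
    rw [← mul_assoc, DualNumber.eps_mul_eps, zero_mul]
  rw [h0, TensorProduct.zero_tmul, add_zero, Module.End.mul_apply, LinearMap.add_apply,
    Module.End.mul_apply, Module.End.mul_apply, TensorProduct.tmul_add]
  abel

/-- The `k`-linear projection `k[ε] ⊗ V → V` onto the constant part. -/
def dualFst : (DualNumber k ⊗[k] V) →ₗ[k] V :=
  (TensorProduct.lid k V).toLinearMap ∘ₗ
    LinearMap.rTensor V (TrivSqZeroExt.fstHom k k k).toLinearMap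

/-- The `k`-linear projection `k[ε] ⊗ V → V` onto the `ε`-part. -/
def dualSnd : (DualNumber k ⊗[k] V) →ₗ[k] V :=
  (TensorProduct.lid k V).toLinearMap ∘ₗ
    LinearMap.rTensor V (TrivSqZeroExt.sndHom k k)

theorem dualFst_tmul (x : DualNumber k) (v : V) :
    dualFst (x ⊗ₜ[k] v) = TrivSqZeroExt.fst x • v := by
  simp [dualFst]

theorem dualSnd_tmul (x : DualNumber k) (v : V) :
    dualSnd (x ⊗ₜ[k] v) = TrivSqZeroExt.snd x • v := by
  simp [dualSnd]

theorem dualFst_dualEnd (A B : Module.End k V) (v : V) :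
    dualFst (dualEnd A B ((1 : DualNumber k) ⊗ₜ[k] v)) = A v := by
  rw [dualEnd_apply_tmul, map_add, dualFst_tmul, dualFst_tmul]
  simp

theorem dualSnd_dualEnd (A B : Module.End k V) (v : V) :
    dualSnd (dualEnd A B ((1 : DualNumber k) ⊗ₜ[k] v)) = B v := by
  rw [dualEnd_apply_tmul, map_add, dualSnd_tmul, dualSnd_tmul]
  simp

theorem dualEnd_injective {A B A' B' : Module.End k V} (h : dualEnd A B = dualEnd A' B') :
    A = A' ∧ B = B' := by
  constructor
  · apply LinearMap.ext
    intro v
    rw [← dualFst_dualEnd A B v, h, dualFst_dualEnd]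
  · apply LinearMap.ext
    intro v
    rw [← dualSnd_dualEnd A B v, h, dualSnd_dualEnd]

theorem dualEnd_eq_zero {A B : Module.End k V} (h : dualEnd A B = 0) : A = 0 ∧ B = 0 := by
  rw [← dualEnd_zero_zero] at h
  exact dualEnd_injective h

theorem dualEnd_eq_one {A B : Module.End k V} (h : dualEnd A B = 1) : A = 1 ∧ B = 0 := by
  rw [← dualEnd_one_zero] at h
  exact dualEnd_injective h

/-- `(1 + N) ^ n = 1 + n • N` when `N ^ 2 = 0`. -/
theorem one_add_pow_of_sq_zero {R : Type*} [Ring R] (N : R) (hN : N * N = 0) (n : ℕ) :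
    (1 + N) ^ n = 1 + n • N := by
  induction n with
  | zero => simp
  | succ n ih =>
    rw [pow_succ, ih, add_mul, mul_add, mul_add, one_mul, one_mul, mul_one, smul_mul_assoc, hN,
      smul_zero, add_zero, succ_nsmul]
    abel

end Fermat.Agent.S56.H794

end
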