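import Mathlib

/-!
# S56 / LOC-MIN (helper794): a 2×2 computation

`V` two-dimensional over a field `k` with `2 ≠ 0`, `N ≠ 0` nilpotent (`N² = 0`),
`C` of trace zero with `N C (1+N) + C (1+N) N = 0` (the `ε`-part of `((1+εC)(1+N) − 1)² = 0`).
Then `C = (1+N) m (1−N) − m` for some `m` of trace zero: the first-order deformation
`(1+εC)(1+N)` of the unipotent element `1+N` is conjugate to `1+N` by `1+εm`.
-/

set_option autoImplicit false

noncomputable section

namespace Fermat.Agent.S56.H794

open Matrix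

theorem mat_entry_eq_zero {k : Type*} [Field k] (a b c d : k)
    (h : !![0, 1; 0, 0] * !![a, b; c, d] * (1 + !![0, 1; 0, 0]) +
      !![a, b; c, d] * (1 + !![0, 1; 0, 0]) * !![0, 1; 0, 0]
      = (0 : Matrix (Fin 2) (Fin 2) k)) : c = 0 := by
  simp only [Matrix.one_fin_two, Matrix.mul_fin_two, Matrix.of_add_of, Matrix.cons_add_cons,
    Matrix.empty_add_empty] at h
  simp at h
  have := congrFun (congrFun h 0) 0
  simp at this
  exact this

theorem mat_conj_sub_eq {k : Type*} [Field k] (hchar : (2 : k) ≠ 0) (a b c d : k) (hc : c = 0)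
    (hd : a + d = 0) :
    !![a, b; c, d] = (1 + !![0, 1; 0, 0]) * !![-(a + b) / 2, 0; a, (a + b) / 2] *
      (1 - !![0, 1; 0, 0]) - !![-(a + b) / 2, 0; a, (a + b) / 2] := by
  simp only [Matrix.one_fin_two, Matrix.mul_fin_two, Matrix.of_add_of, Matrix.of_sub_of,
    Matrix.cons_add_cons, Matrix.cons_sub_cons, Matrix.empty_add_empty, Matrix.empty_sub_empty]
  ext i j
  fin_cases i <;> fin_cases j
  · simp
  · simp
    field_simp
    ring
  · simp [hc]
  · simp
    linear_combination hd

/-- The matrix form of the computation. -/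
theorem mat_exists_trace_zero_conj_sub {k : Type*} [Field k] (hchar : (2 : k) ≠ 0)
    (Cm : Matrix (Fin 2) (Fin 2) k) (htr : Cm.trace = 0)
    (h : !![0, 1; 0, 0] * Cm * (1 + !![0, 1; 0, 0]) + Cm * (1 + !![0, 1; 0, 0]) * !![0, 1; 0, 0]
      = (0 : Matrix (Fin 2) (Fin 2) k)) :
    ∃ mm : Matrix (Fin 2) (Fin 2) k, mm.trace = 0 ∧
      Cm = (1 + !![0, 1; 0, 0]) * mm * (1 - !![0, 1; 0, 0]) - mm := by
  have htr' : Cm 0 0 + Cm 1 1 = 0 := by
    rw [Matrix.trace_fin_two] at htr
    exact htr
  rw [Matrix.eta_fin_two Cm] at h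
  have hc := mat_entry_eq_zero _ _ _ _ h
  refine ⟨!![-(Cm 0 0 + Cm 0 1) / 2, 0; Cm 0 0, (Cm 0 0 + Cm 0 1) / 2], ?_, ?_⟩
  · rw [Matrix.trace_fin_two]
    simp only [Matrix.of_apply, Matrix.cons_val', Matrix.cons_val_zero, Matrix.cons_val_one]
    ring
  · conv_lhs => rw [Matrix.eta_fin_two Cm]
    exact mat_conj_sub_eq hchar _ _ _ _ hc htr'

variable {k : Type*} [Field k] {V : Type*} [AddCommGroup V] [Module k V]

/-- **The 2×2 lemma.** -/
theorem exists_trace_zero_conj_sub (h2 : Module.finrank k V = 2) (hchar : (2 : k) ≠ 0)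
    (N C : Module.End k V) (hN2 : N * N = 0) (hN0 : N ≠ 0)
    (hC : LinearMap.trace k V C = 0)
    (hNC : N * C * (1 + N) + C * (1 + N) * N = 0) :
    ∃ m : Module.End k V, LinearMap.trace k V m = 0 ∧ C = (1 + N) * m * (1 - N) - m := by
  classical
  have : Module.Finite k V := Module.finite_of_finrank_eq_succ h2
  -- adapted basis
  obtain ⟨v, hv⟩ : ∃ v, N v ≠ 0 := by
    by_contra hcon
    apply hN0
    apply LinearMap.ext
    intro v
    by_contra hv
    exact hcon ⟨v, hv⟩
  have hNN : N (N v) = 0 := by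
    have := congrArg (fun f : Module.End k V => f v) hN2
    simpa using this
  have hli : LinearIndependent k ![N v, v] := by
    rw [LinearIndependent.pair_iff]
    intro s t hst
    have h1 : t • N v = 0 := by
      have := congrArg N hst
      rw [map_add, map_smul, map_smul, hNN, smul_zero, zero_add, map_zero] at this
      exact this
    have ht : t = 0 := by
      rcases smul_eq_zero.mp h1 with h | h
      · exact h
      · exact absurd h hv
    rw [ht, zero_smul, add_zero] at hst
    have hs : s = 0 := by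
      rcases smul_eq_zero.mp hst with h | h
      · exact h
      · exact absurd h hv
    exact ⟨hs, ht⟩
  let b : Module.Basis (Fin 2) k V :=
    basisOfLinearIndependentOfCardEqFinrank hli (by rw [Fintype.card_fin, h2])
  have hb0 : b 0 = N v := by
    simp [b]
  have hb1 : b 1 = v := by
    simp [b]
  let M := LinearMap.toMatrixAlgEquiv b
  have hMN : M N = !![0, 1; 0, 0] := by
    ext i j
    simp only [M, LinearMap.toMatrixAlgEquiv_apply]
    fin_cases j
    · have : N (b 0) = 0 := by rw [hb0, hNN]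
      fin_cases i <;> simp [this]
    · have : N (b 1) = b 0 := by rw [hb1, hb0]
      fin_cases i <;> simp [this]
  have hMtr : ∀ f : Module.End k V, LinearMap.trace k V f = (M f).trace := by
    intro f
    rw [LinearMap.trace_eq_matrix_trace k b f]
    rfl
  have hMC : (M C).trace = 0 := by rw [← hMtr, hC]
  have hM : !![0, 1; 0, 0] * M C * (1 + !![0, 1; 0, 0]) +
      M C * (1 + !![0, 1; 0, 0]) * !![0, 1; 0, 0] = (0 : Matrix (Fin 2) (Fin 2) k) := by
    have := congrArg M hNC
    rw [map_add, map_mul, map_mul, map_mul, map_mul, map_add, map_one, hMN, map_zero] at this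
    exact this
  obtain ⟨mm, hmm, hmm2⟩ := mat_exists_trace_zero_conj_sub hchar (M C) hMC hM
  refine ⟨M.symm mm, ?_, ?_⟩
  · rw [hMtr, AlgEquiv.apply_symm_apply, hmm]
  · apply M.injective
    rw [map_sub, map_mul, map_mul, map_add, map_sub, map_one, hMN, AlgEquiv.apply_symm_apply]
    exact hmm2

end Fermat.Agent.S56.H794

end
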