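import Fermat.Agent.S56.H716.TBDefs
import Fermat.Agent.S56.H794.TameRat
import Fermat.Agent.S56.H794.DualEnd
import Fermat.Agent.S56.H794.Nilp2

/-!
# S56 / LOC-MIN-A (helper794): unipotent inertia ⟹ the tangent cocycle is a coboundary on inertia

`ρbar : ResidualGaloisRep k`, `p = 0` in `k`, `p` odd, `c` an ad⁰-cocycle (`H716.IsAdCocycle`),
`ρ'` a lift of `c` to `k[ε]` (`H716.IsLiftOf`) which is unipotent on inertia at a prime `q ≠ p`,
`P | q` a valuation subring at which `ρbar` is ramified.  Then there is `m` of trace zero with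
`c σ = ρ̄(σ) m ρ̄(σ)⁻¹ − m` for all `σ ∈ I_P` (`exists_coboundary_on_inertia_of_unipotent`).

Proof: `σ ↦ (1 + ε c σ) ρ̄ σ` has image of exponent `p` on `I_P` (Cayley–Hamilton), hence cyclic
image (landed `inertia_image_pow_of_ne_one`), generated by the image of any `τ` with
`ρ̄ τ ≠ 1`; the 2×2 lemma (`Nilp2.lean`) conjugates `(1 + ε c τ) ρ̄ τ` to `ρ̄ τ`.
-/

set_option autoImplicit false

open scoped TensorProduct
open Polynomial

noncomputable section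

namespace Fermat.Agent.S56.H794

open Fermat.Agent.S56 Fermat.Agent.S56.H716

variable {k : Type} [Field k] (ρbar : ResidualGaloisRep k)

theorem liftEnd_eq_dualEnd (c : GQ → Module.End k ρbar.V) (σ : GQ) :
    liftEnd ρbar c σ = dualEnd (ρbar.ρ σ) (c σ * ρbar.ρ σ) := rfl

theorem rho_mul_rho_inv (σ : GQ) : ρbar.ρ σ * ρbar.ρ σ⁻¹ = 1 := by
  rw [← map_mul, mul_inv_cancel, map_one]

theorem rho_inv_mul_rho (σ : GQ) : ρbar.ρ σ⁻¹ * ρbar.ρ σ = 1 := by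
  rw [← map_mul, inv_mul_cancel, map_one]

variable {ρbar}

theorem IsAdCocycle_map_one {c : GQ → Module.End k ρbar.V} (hc : IsAdCocycle ρbar c) :
    c 1 = 0 := by
  have h := hc.map_mul 1 1
  rw [mul_one, map_one, inv_one, map_one, one_mul, mul_one] at h
  exact left_eq_add.mp h

theorem liftEnd_mul {c : GQ → Module.End k ρbar.V} (hc : IsAdCocycle ρbar c) (σ τ : GQ) :
    liftEnd ρbar c (σ * τ) = liftEnd ρbar c σ * liftEnd ρbar c τ := by
  rw [liftEnd_eq_dualEnd, liftEnd_eq_dualEnd, liftEnd_eq_dualEnd, dualEnd_mul, hc.map_mul,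
    map_mul]
  have key : (c σ + ρbar.ρ σ * c τ * ρbar.ρ σ⁻¹) * (ρbar.ρ σ * ρbar.ρ τ) =
      ρbar.ρ σ * (c τ * ρbar.ρ τ) + c σ * ρbar.ρ σ * ρbar.ρ τ := by
    rw [add_mul, add_comm]
    have e1 : ρbar.ρ σ * c τ * ρbar.ρ σ⁻¹ * (ρbar.ρ σ * ρbar.ρ τ) =
        ρbar.ρ σ * (c τ * ρbar.ρ τ) := by
      simp only [mul_assoc]
      rw [← mul_assoc (ρbar.ρ σ⁻¹), rho_inv_mul_rho, one_mul]
    rw [e1, mul_assoc (c σ)]
  rw [key]

theorem liftEnd_one {c : GQ → Module.End k ρbar.V} (hc : IsAdCocycle ρbar c) :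
    liftEnd ρbar c 1 = 1 := by
  rw [liftEnd_eq_dualEnd, IsAdCocycle_map_one hc, zero_mul, map_one, dualEnd_one_zero]

/-- The lift `σ ↦ (1 + ε c σ) ρ̄ σ` as a monoid homomorphism. -/
def liftMonoidHom {c : GQ → Module.End k ρbar.V} (hc : IsAdCocycle ρbar c) :
    GQ →* Module.End (DualNumber k) (DualNumber k ⊗[k] ρbar.V) where
  toFun := liftEnd ρbar c
  map_one' := liftEnd_one hc
  map_mul' := liftEnd_mul hc

/-- The lift as a homomorphism to the unit group. -/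
def liftUnits {c : GQ → Module.End k ρbar.V} (hc : IsAdCocycle ρbar c) :
    GQ →* (Module.End (DualNumber k) (DualNumber k ⊗[k] ρbar.V))ˣ :=
  (liftMonoidHom hc).toHomUnits

theorem coe_liftUnits {c : GQ → Module.End k ρbar.V} (hc : IsAdCocycle ρbar c) (σ : GQ) :
    ((liftUnits hc σ : (Module.End (DualNumber k) (DualNumber k ⊗[k] ρbar.V))ˣ) :
      Module.End (DualNumber k) (DualNumber k ⊗[k] ρbar.V)) = liftEnd ρbar c σ := rfl

theorem finiteLevel_liftUnits {c : GQ → Module.End k ρbar.V} (hc : IsAdCocycle ρbar c) :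
    FiniteLevel (liftUnits hc) := by
  obtain ⟨L₁, hL₁, h₁⟩ := ρbar.factorsThroughFiniteLevel
  obtain ⟨L₂, hL₂, h₂⟩ := hc.level
  refine ⟨L₁ ⊔ L₂, IntermediateField.finiteDimensional_sup L₁ L₂, fun τ hτ => ?_⟩
  apply Units.ext
  rw [coe_liftUnits, Units.val_one, liftEnd_eq_dualEnd]
  have hρ : ρbar.ρ τ = 1 := h₁ τ (fun x hx => hτ x ((le_sup_left : L₁ ≤ L₁ ⊔ L₂) hx))
  have hcτ : c τ = 0 := by
    have := h₂ 1 τ (fun x hx => hτ x ((le_sup_right : L₂ ≤ L₁ ⊔ L₂) hx))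
    rw [one_mul, IsAdCocycle_map_one hc] at this
    exact this
  rw [hρ, hcτ, zero_mul, dualEnd_one_zero]

/-- Two cocycle-like functions agreeing at `τ` agree on the powers of `τ`. -/
theorem cocycle_pow_eq {c : GQ → Module.End k ρbar.V} (hc : IsAdCocycle ρbar c)
    (m : Module.End k ρbar.V) (τ : GQ) (h : c τ = ρbar.ρ τ * m * ρbar.ρ τ⁻¹ - m) (j : ℕ) :
    c (τ ^ j) = ρbar.ρ (τ ^ j) * m * ρbar.ρ (τ ^ j)⁻¹ - m := by
  induction j with
  | zero => simp [IsAdCocycle_map_one hc]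
  | succ j ih =>
    rw [pow_succ, hc.map_mul, ih, h, mul_inv_rev, map_mul, map_mul]
    have e1 : ρbar.ρ (τ ^ j) * (ρbar.ρ τ * m * ρbar.ρ τ⁻¹ - m) * ρbar.ρ (τ ^ j)⁻¹ =
        ρbar.ρ (τ ^ j) * ρbar.ρ τ * m * (ρbar.ρ τ⁻¹ * ρbar.ρ (τ ^ j)⁻¹) -
          ρbar.ρ (τ ^ j) * m * ρbar.ρ (τ ^ j)⁻¹ := by
      rw [mul_sub, sub_mul]
      simp only [mul_assoc]
    rw [e1]
    abel

/-- Unipotent lifts: for `σ` in inertia, `(liftEnd c σ − 1)² = 0`. -/
theorem liftEnd_sub_one_sq {c : GQ → Module.End k ρbar.V}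
    {ρ' : GaloisRepAdic (DualNumber k)} (hlift : IsLiftOf ρbar c ρ')
    {q : ℕ} (hunip : ρ'.IsUnipotentOnInertiaAt q)
    {P : ValuationSubring Qb} (hP : P.LiesOverPrime q) {σ : GQ}
    (hσ : σ ∈ P.inertiaSubgroupIn ℚ) :
    (liftEnd ρbar c σ - 1) * (liftEnd ρbar c σ - 1) = 0 := by
  obtain ⟨e, he⟩ := hlift
  have hconj : liftEnd ρbar c σ = e.conj (ρ'.ρ σ) := by
    apply LinearMap.ext
    intro x
    rw [LinearEquiv.conj_apply_apply, he, LinearEquiv.apply_symm_apply]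
  have hchar : LinearMap.charpoly (liftEnd ρbar c σ) = (X - 1) ^ 2 := by
    rw [hconj, LinearEquiv.charpoly_conj]
    exact hunip P hP σ hσ
  have hCH := LinearMap.aeval_self_charpoly (liftEnd ρbar c σ)
  rw [hchar] at hCH
  simpa [pow_two] using hCH

/-- The components of `(liftEnd c σ − 1)² = 0`. -/
theorem unipotent_components {c : GQ → Module.End k ρbar.V}
    {ρ' : GaloisRepAdic (DualNumber k)} (hlift : IsLiftOf ρbar c ρ')
    {q : ℕ} (hunip : ρ'.IsUnipotentOnInertiaAt q)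
    {P : ValuationSubring Qb} (hP : P.LiesOverPrime q) {σ : GQ}
    (hσ : σ ∈ P.inertiaSubgroupIn ℚ) :
    (ρbar.ρ σ - 1) * (ρbar.ρ σ - 1) = 0 ∧
      (ρbar.ρ σ - 1) * (c σ * ρbar.ρ σ) + c σ * ρbar.ρ σ * (ρbar.ρ σ - 1) = 0 := by
  have h := liftEnd_sub_one_sq hlift hunip hP hσ
  have h1 : liftEnd ρbar c σ - 1 = dualEnd (ρbar.ρ σ - 1) (c σ * ρbar.ρ σ) := by
    rw [liftEnd_eq_dualEnd, ← dualEnd_one_zero, dualEnd_sub, sub_zero]
  rw [h1, dualEnd_mul] at h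
  exact dualEnd_eq_zero h

/-- Unipotent lifts have exponent `p` on inertia. -/
theorem liftEnd_pow_eq_one {p : ℕ} (hpk : (p : k) = 0) {c : GQ → Module.End k ρbar.V}
    {ρ' : GaloisRepAdic (DualNumber k)} (hlift : IsLiftOf ρbar c ρ')
    {q : ℕ} (hunip : ρ'.IsUnipotentOnInertiaAt q)
    {P : ValuationSubring Qb} (hP : P.LiesOverPrime q) {σ : GQ}
    (hσ : σ ∈ P.inertiaSubgroupIn ℚ) :
    liftEnd ρbar c σ ^ p = 1 := by
  have h := liftEnd_sub_one_sq hlift hunip hP hσ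
  have key := one_add_pow_of_sq_zero (liftEnd ρbar c σ - 1) h p
  have h1 : (1 : Module.End (DualNumber k) (DualNumber k ⊗[k] ρbar.V)) +
      (liftEnd ρbar c σ - 1) = liftEnd ρbar c σ := by abel
  rw [h1] at key
  rw [key]
  have h2 : (p : DualNumber k) = 0 := by
    rw [← map_natCast (algebraMap k (DualNumber k)) p, hpk, map_zero]
  have hp0 : ∀ w : DualNumber k ⊗[k] ρbar.V, p • w = 0 := by
    intro w
    have : (p : DualNumber k) • w = p • w := Nat.cast_smul_eq_nsmul (DualNumber k) p w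
    rw [← this, h2, zero_smul]
  have hpX : p • (liftEnd ρbar c σ - 1) = 0 := by
    apply LinearMap.ext
    intro w
    rw [LinearMap.smul_apply, LinearMap.zero_apply]
    exact hp0 _
  rw [hpX, add_zero]

theorem two_ne_zero_of_odd_char {p : ℕ} (hp : p.Prime) (hp2 : p ≠ 2) (hpk : (p : k) = 0) :
    (2 : k) ≠ 0 := by
  intro h2
  obtain ⟨a, ha⟩ := hp.odd_of_ne_two hp2
  have h1 : (p : k) = 2 * (a : k) + 1 := by
    rw [ha]
    push_cast
    ring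
  rw [h2, zero_mul, zero_add] at h1
  exact one_ne_zero (h1.symm.trans hpk)

/-- **LOC-MIN-A.**  A tangent cocycle whose lift is unipotent on inertia at `q ≠ p` is a
coboundary (of a trace-zero endomorphism) on the inertia group of every place `P | q` at which
`ρ̄` is ramified. -/
theorem exists_coboundary_on_inertia_of_unipotent
    {p : ℕ} (hp : p.Prime) (hp2 : p ≠ 2) (hpk : (p : k) = 0)
    {c : GQ → Module.End k ρbar.V} (hc : IsAdCocycle ρbar c)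
    {ρ' : GaloisRepAdic (DualNumber k)} (hlift : IsLiftOf ρbar c ρ')
    {q : ℕ} (hq : q.Prime) (hqp : q ≠ p) (hunip : ρ'.IsUnipotentOnInertiaAt q)
    {P : ValuationSubring Qb} (hP : P.LiesOverPrime q)
    (hram : ∃ τ ∈ P.inertiaSubgroupIn ℚ, ρbar.ρ τ ≠ 1) :
    ∃ m : Module.End k ρbar.V, LinearMap.trace k ρbar.V m = 0 ∧
      ∀ σ ∈ P.inertiaSubgroupIn ℚ, c σ = ρbar.ρ σ * m * ρbar.ρ σ⁻¹ - m := by
  obtain ⟨τ, hτ, hτ1⟩ := hram
  obtain ⟨hN2, hNB⟩ := unipotent_components hlift hunip hP hτ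
  obtain ⟨N, hN⟩ : ∃ N : Module.End k ρbar.V, ρbar.ρ τ - 1 = N := ⟨_, rfl⟩
  have hρτ : ρbar.ρ τ = 1 + N := by rw [← hN]; abel
  rw [hN] at hN2 hNB
  rw [hρτ] at hNB
  have hN0 : N ≠ 0 := by
    rw [← hN]
    exact sub_ne_zero.mpr hτ1
  have hNC : N * c τ * (1 + N) + c τ * (1 + N) * N = 0 := by
    rw [mul_assoc]
    exact hNB
  obtain ⟨m, hm0, hm⟩ := exists_trace_zero_conj_sub ρbar.finrank_eq
    (two_ne_zero_of_odd_char hp hp2 hpk) N (c τ) hN2 hN0 (hc.trace_eq_zero τ) hNC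
  have hinv : ρbar.ρ τ⁻¹ = 1 - N := by
    have h1 : ρbar.ρ τ * (1 - N) = 1 := by
      rw [hρτ, add_mul, mul_sub, mul_sub, mul_one, one_mul, hN2, mul_one]
      abel
    calc ρbar.ρ τ⁻¹ = ρbar.ρ τ⁻¹ * (ρbar.ρ τ * (1 - N)) := by rw [h1, mul_one]
      _ = (ρbar.ρ τ⁻¹ * ρbar.ρ τ) * (1 - N) := by rw [mul_assoc]
      _ = 1 - N := by rw [rho_inv_mul_rho, one_mul]
  have hcτ : c τ = ρbar.ρ τ * m * ρbar.ρ τ⁻¹ - m := by
    rw [hinv, hρτ]
    exact hm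
  refine ⟨m, hm0, fun σ hσ => ?_⟩
  have hexp : ∀ τ' ∈ P.inertiaSubgroupIn ℚ, liftUnits hc τ' ^ p = 1 := by
    intro τ' hτ'
    apply Units.ext
    rw [Units.val_pow_eq_pow_val, coe_liftUnits, Units.val_one]
    exact liftEnd_pow_eq_one hpk hlift hunip hP hτ'
  have hne : liftUnits hc τ ≠ 1 := by
    intro h
    have h' := congrArg Units.val h
    rw [coe_liftUnits, Units.val_one, liftEnd_eq_dualEnd] at h'
    exact hτ1 (dualEnd_eq_one h').1
  obtain ⟨j, -, hj⟩ := inertia_image_pow_of_ne_one (finiteLevel_liftUnits hc) hq hP hp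
    (Ne.symm hqp) hexp hσ hτ hne
  rw [← map_pow] at hj
  have hj' := congrArg Units.val hj
  rw [coe_liftUnits, coe_liftUnits, liftEnd_eq_dualEnd, liftEnd_eq_dualEnd] at hj'
  obtain ⟨hρ, hcρ⟩ := dualEnd_injective hj'
  have hinvσ : ρbar.ρ σ⁻¹ = ρbar.ρ (τ ^ j)⁻¹ := by
    calc ρbar.ρ σ⁻¹ = ρbar.ρ σ⁻¹ * (ρbar.ρ (τ ^ j) * ρbar.ρ (τ ^ j)⁻¹) := by
          rw [rho_mul_rho_inv, mul_one]
      _ = (ρbar.ρ σ⁻¹ * ρbar.ρ σ) * ρbar.ρ (τ ^ j)⁻¹ := by rw [← hρ, mul_assoc]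
      _ = ρbar.ρ (τ ^ j)⁻¹ := by rw [rho_inv_mul_rho, one_mul]
  have hcσ : c σ = c (τ ^ j) := by
    calc c σ = c σ * ρbar.ρ σ * ρbar.ρ σ⁻¹ := by rw [mul_assoc, rho_mul_rho_inv, mul_one]
      _ = c (τ ^ j) * ρbar.ρ (τ ^ j) * ρbar.ρ (τ ^ j)⁻¹ := by rw [hcρ, hinvσ]
      _ = c (τ ^ j) := by rw [mul_assoc, rho_mul_rho_inv, mul_one]
  rw [hcσ, cocycle_pow_eq hc m τ hcτ j, hρ, hinvσ]

end Fermat.Agent.S56.H794

end
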