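import Fermat.Agent.S56.H716.SBSpec
import Fermat.Agent.S56.H794.LocMinA
import Fermat.Agent.Lib.Cheb.H476.FrobConj

/-!
# S56 / LOC-MIN (helper794): interface + glue  `LOC-MIN ⇐ LOC-MIN-A (landed) + LOC-MIN-B`

* `LocMinBStatement` (LOC-MIN-B, "unramified classes"; any field `k`, any prime `q`, any place
  `P | q`): there is a `k`-space `Λ` of functions with `dim Λ ≤ h⁰(D_P, ad⁰ρ̄)` such that every
  ad⁰-cocycle which is a coboundary on the inertia group `I_P` is, on `D_P`, cohomologous to an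
  element of `Λ`.  (`H¹_ur(D_P, M) = H¹(D_P/I_P, M^{I_P})`, `dim = h⁰(D_P, M)`.)
* `ramified_at_of_hyp`: under `Hyp`, `ρ̄` is ramified at EVERY place `P` over `v ∈ Smin`, `v ≠ p`.
* `locMin_of_B : LocMinBStatement → H716.LocMinStatement` (glue with the landed LOC-MIN-A,
  `exists_coboundary_on_inertia_of_unipotent`).

Nothing unproved in this file.
-/

set_option autoImplicit false

open Polynomial IsLocalRing

noncomputable section

namespace Fermat.Agent.S56.H794

open Fermat.Agent.S56 Fermat.Agent.S56.H716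

/-- (LOC-MIN-B) unramified classes: cocycles which are coboundaries on the inertia group `I_P`
are, on the decomposition group `D_P`, cohomologous to the elements of a space of dimension
`≤ h⁰(D_P, ad⁰ρ̄)`. -/
def LocMinBStatement : Prop :=
  ∀ (k : Type) [Field k] (ρbar : ResidualGaloisRep k) (q : ℕ), q.Prime →
    ∀ P : ValuationSubring Qb, P.LiesOverPrime q →
      ∃ Λ : Submodule k (GQ → Module.End k ρbar.V), Module.Finite k Λ ∧
        Module.finrank k Λ ≤ Module.finrank k (adInv ρbar (P.decompositionSubgroup ℚ)) ∧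
        ∀ c : GQ → Module.End k ρbar.V, IsAdCocycle ρbar c →
          IsAdCoboundaryOn ρbar (P.inertiaSubgroupIn ℚ) c →
          ∃ t ∈ Λ, IsAdCoboundaryOn ρbar (P.decompositionSubgroup ℚ) (c - t)

section

variable {𝒪 : Type} [CommRing 𝒪] [IsDomain 𝒪] [IsDiscreteValuationRing 𝒪]
  {p : ℕ} {ρbar : ResidualGaloisRep (ResidueField 𝒪)} {S Smin : Finset ℕ}

/-- Under `Hyp`, the residue characteristic is `p`. -/
theorem natCast_residueField_eq_zero_of_hyp (h : Hyp 𝒪 p ρbar S Smin) :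
    (p : ResidueField 𝒪) = 0 := by
  have h1 : IsLocalRing.residue 𝒪 (p : 𝒪) = 0 :=
    (IsLocalRing.residue_eq_zero_iff _).mpr h.hp𝒪
  rwa [map_natCast] at h1

/-- Under `Hyp`, the primes of `Smin` are prime numbers. -/
theorem prime_of_mem_Smin (h : Hyp 𝒪 p ρbar S Smin) {v : ℕ} (hv : v ∈ Smin) : v.Prime :=
  h.hS v (h.hSmin hv)

/-- Under `Hyp`, `ρ̄` is ramified at every place over `v ∈ Smin`, `v ≠ p`. -/
theorem ramified_at_of_hyp (h : Hyp 𝒪 p ρbar S Smin) {v : ℕ} (hv : v ∈ Smin) (hvp : v ≠ p)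
    {P : ValuationSubring Qb} (hP : P.LiesOverPrime v) :
    ∃ τ ∈ P.inertiaSubgroupIn ℚ, ρbar.ρ τ ≠ 1 := by
  have hvprime : v.Prime := prime_of_mem_Smin h hv
  by_contra hcon
  push Not at hcon
  refine (h.hmin v hvprime hvp).mp hv ?_
  intro A hA σ hσ
  exact Fermat.Agent.Lib.Cheb.H476.map_inertia_eq_one_of_liesOver ρbar.ρ hvprime hP hA hcon σ hσ

end

/-- **Glue**: LOC-MIN from LOC-MIN-B and the landed LOC-MIN-A. -/
theorem locMin_of_B (hB : LocMinBStatement) : LocMinStatement := by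
  intro 𝒪 _ _ _ _ _ p ρbar S Smin h v hv hvp P hP
  have hvprime : v.Prime := prime_of_mem_Smin h hv
  have hpk : (p : ResidueField 𝒪) = 0 := natCast_residueField_eq_zero_of_hyp h
  have hram := ramified_at_of_hyp h hv hvp hP
  obtain ⟨Λ, hfin, hrk, hΛ⟩ := hB (ResidueField 𝒪) ρbar v hvprime P hP
  refine ⟨Λ, hfin, by simpa using hrk, ?_⟩
  rintro c hc ⟨ρ', hlift, -, hunip⟩
  obtain ⟨m, -, hm⟩ := exists_coboundary_on_inertia_of_unipotent h.hp h.hp2 hpk hc hlift
    hvprime hvp hunip hP hram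
  exact hΛ c hc ⟨m, hm⟩

end Fermat.Agent.S56.H794

end
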